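import Fermat.Agent.PsiOscillation.Coefficients
import Fermat.Agent.CycloGrowth.ZetaStrip

/-!
# Landau's criterion

If `e (ψ n - n) ≤ C n ^ α` for all large `n`, the series of `C n ^ α - e (ψ n - n)` converges at
every `z + 1` with `α < re z`. So `ζ` has no zero there, and at a zero `ρ = α + i γ` one has
`1 ≤ C ‖ρ‖`.
-/

set_option autoImplicit false

noncomputable section

open Complex Filter Topology Set
open scoped ComplexOrder

namespace FA.PsiOscillation

theorem riemannZeta₁_real_ne_zero {x : ℝ} (hx : 0 < x) : riemannZeta₁ (x : ℂ) ≠ 0 := by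
  rcases le_or_gt 1 x with h1 | h1
  · intro h0
    rcases eq_or_ne (x : ℂ) 1 with he | he
    · rw [he, riemannZeta₁_one] at h0; exact one_ne_zero h0
    · exact riemannZeta_ne_zero_of_one_le_re (s := (x : ℂ)) (by simpa using h1)
        (by rw [riemannZeta_eq_inv_sub_mul he, h0, mul_zero])
  · have h : FA.CycloGrowth.fracInt x =
        ((∫ t in Ioi (1 : ℝ), (t - (⌊t⌋₊ : ℝ)) * t ^ (-(x + 1)) : ℝ) : ℂ) := by
      rw [FA.CycloGrowth.fracInt, ← integral_complex_ofReal]
      refine MeasureTheory.setIntegral_congr_fun measurableSet_Ioi fun t ht => ?_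
      rw [Complex.ofReal_mul, Complex.ofReal_cpow (zero_le_one.trans ht.out.le)]
      push_cast
      ring
    have h0 : 0 ≤ ∫ t in Ioi (1 : ℝ), (t - (⌊t⌋₊ : ℝ)) * t ^ (-(x + 1)) :=
      MeasureTheory.setIntegral_nonneg measurableSet_Ioi fun t ht => by
        have ht1 : (1 : ℝ) < t := ht
        exact mul_nonneg (sub_nonneg.2 (Nat.floor_le (by linarith)))
          (Real.rpow_nonneg (by linarith) _)
    rw [FA.CycloGrowth.riemannZeta₁_eq (by simpa using hx), h]
    generalize (∫ t in Ioi (1 : ℝ), (t - (⌊t⌋₊ : ℝ)) * t ^ (-(x + 1))) = J at h0 ⊢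
    intro he
    have hre := congrArg Complex.re he
    simp at hre
    nlinarith [mul_nonneg (mul_nonneg (sub_nonneg.2 h1.le) hx.le) h0]

/-- At a zero `ρ` of `ζ₁` one has `(z - ρ) ζ₁' z / ζ₁ z → m ≥ 1`. -/
theorem exists_tendsto_logDeriv {ρ : ℂ} (hρ : riemannZeta₁ ρ = 0) :
    ∃ m : ℕ, 1 ≤ m ∧ (∀ᶠ z in 𝓝[≠] ρ, riemannZeta₁ z ≠ 0) ∧
      Tendsto (fun z => (z - ρ) * (deriv riemannZeta₁ z / riemannZeta₁ z)) (𝓝[≠] ρ)
        (𝓝 (m : ℂ)) := by
  have hU : AnalyticOnNhd ℂ riemannZeta₁ univ :=
    differentiable_riemannZeta₁.differentiableOn.analyticOnNhd isOpen_univ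
  have hf := hU ρ (mem_univ ρ)
  have htop : analyticOrderAt riemannZeta₁ ρ ≠ ⊤ := by
    refine hU.analyticOrderAt_ne_top_of_isPreconnected isPreconnected_univ (x := 1) (mem_univ _)
      (mem_univ _) ?_
    rw [analyticOrderAt_eq_zero.2 (Or.inr (by rw [riemannZeta₁_one]; exact one_ne_zero))]
    exact ENat.zero_ne_top
  obtain ⟨g, hg, hg0, heq⟩ := hf.analyticOrderAt_ne_top.1 htop
  generalize analyticOrderNatAt riemannZeta₁ ρ = m at heq
  have hm : m ≠ 0 := by
    rintro rfl
    have := heq.eq_of_nhds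
    simp only [pow_zero, one_smul] at this
    exact hg0 (this ▸ hρ)
  refine ⟨m, Nat.one_le_iff_ne_zero.2 hm, ?_, ?_⟩
  · filter_upwards [nhdsWithin_le_nhds (heq.and (hg.continuousAt.eventually_ne hg0)),
      self_mem_nhdsWithin] with z hz hne
    rw [hz.1, smul_eq_mul]
    exact mul_ne_zero (pow_ne_zero _ (sub_ne_zero.2 hne)) hz.2
  · have hlim : Tendsto (fun z => (m : ℂ) + (z - ρ) * (deriv g z / g z)) (𝓝[≠] ρ) (𝓝 (m : ℂ)) := by
      have hc : ContinuousAt (fun z => (m : ℂ) + (z - ρ) * (deriv g z / g z)) ρ :=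
        continuousAt_const.add ((continuousAt_id.sub continuousAt_const).mul
          (hg.deriv.continuousAt.div hg.continuousAt hg0))
      have := hc.tendsto.mono_left (nhdsWithin_le_nhds (s := {ρ}ᶜ))
      simpa using this
    refine hlim.congr' ?_
    filter_upwards [nhdsWithin_le_nhds (heq.eventuallyEq_nhds.and
      ((hg.continuousAt.eventually_ne hg0).and hg.eventually_analyticAt)),
      self_mem_nhdsWithin] with z hz hne
    obtain ⟨hz1, hgz, hga⟩ := hz
    have hne' : z - ρ ≠ 0 := sub_ne_zero.2 hne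
    have hd : deriv riemannZeta₁ z =
        (m : ℂ) * (z - ρ) ^ (m - 1) * g z + (z - ρ) ^ m * deriv g z := by
      rw [hz1.deriv_eq]
      have h1 : HasDerivAt (fun w : ℂ => (w - ρ) ^ m) ((m : ℂ) * (z - ρ) ^ (m - 1)) z := by
        simpa using ((hasDerivAt_id z).sub_const ρ).fun_pow m
      exact (h1.mul hga.differentiableAt.hasDerivAt).deriv
    rw [hd, hz1.eq_of_nhds, smul_eq_mul]
    obtain ⟨k, rfl⟩ := Nat.exists_eq_succ_of_ne_zero hm
    simp only [Nat.add_sub_cancel, Nat.succ_eq_add_one, pow_succ]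
    field_simp

variable {C α e : ℝ} {N : ℕ}

theorem tailCoeff_nonneg (h : ∀ n, N ≤ n → e * (Chebyshev.psi n - n) ≤ C * (n : ℝ) ^ α) (n : ℕ) :
    (0 : ℂ) ≤ (tailCoeff C α e N n : ℂ) := by
  rw [Complex.zero_le_real, tailCoeff]
  split_ifs with hn
  · exact le_rfl
  · have := h n (not_lt.1 hn)
    simp only [coeff]
    linarith

theorem summable_tailCoeff_of_two_lt (hα : 0 < α) (hα1 : α < 1) (C e : ℝ) (N : ℕ) {w : ℂ}
    (hw : 2 < w.re) : LSeriesSummable (fun n => (tailCoeff C α e N n : ℂ)) w := by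
  have := (lSeriesHasSum_tailCoeff hα hα1 C e N (z := w - 1) (by simp; linarith)).LSeriesSummable
  rwa [sub_add_cancel] at this

theorem summable_of_re_lt {v : ℝ} {w : ℂ}
    (h : LSeriesSummable (fun n => (tailCoeff C α e N n : ℂ)) (v : ℂ)) (hw : v ≤ w.re) :
    LSeriesSummable (fun n => (tailCoeff C α e N n : ℂ)) w :=
  h.of_re_le_re (by simpa using hw)

/-- Where the series converges there are no zeros and the identity holds. -/
theorem eq_continuation_of_summable (hα : 0 < α) (hα1 : α < 1) (he : e ≠ 0) {v : ℝ} (hv : α ≤ v)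
    (hsum : ∀ z : ℂ, v < z.re → LSeriesSummable (fun n => (tailCoeff C α e N n : ℂ)) (z + 1))
    {z : ℂ} (hz : v < z.re) :
    riemannZeta₁ z ≠ 0 ∧
      LSeries (fun n => (tailCoeff C α e N n : ℂ)) (z + 1) = continuation C α e N z := by
  set a : ℕ → ℂ := fun n => (tailCoeff C α e N n : ℂ) with ha
  set U : Set ℂ := {z | v < z.re}
  have hUo : IsOpen U := isOpen_lt continuous_const continuous_re
  have hre0 : ∀ w ∈ U, 0 < w.re := fun w hw => lt_trans (hα.trans_le hv) hw
  have hne : ∀ w ∈ U, w ≠ (α : ℂ) ∧ w ≠ 0 := fun w hw => by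
    have h1 := hre0 w hw
    have h2 : v < w.re := hw
    constructor <;> rintro rfl <;> simp at * <;> linarith
  have hL : ∀ w ∈ U, DifferentiableAt ℂ (fun w => LSeries a (w + 1)) w := fun w hw => by
    have habs : LSeries.abscissaOfAbsConv a < (w + 1).re := by
      obtain ⟨u, hu1, hu2⟩ := exists_between (show v < w.re from hw)
      refine (LSeries.abscissaOfAbsConv_le_of_forall_lt_LSeriesSummable (x := u + 1) fun y hy => ?_
        ).trans_lt (by rw [add_re, one_re]; exact_mod_cast (by linarith : u + 1 < w.re + 1))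
      have := hsum (((y - 1 : ℝ) : ℂ)) (by simp; linarith)
      simpa using this
    exact ((LSeries_differentiableOn a).differentiableAt
      ((isOpen_re_gt_EReal _).mem_nhds habs)).fun_comp' w
        (differentiableAt_id.add_const 1)
  set K : ℂ → ℂ := fun w => w / e * (LSeries a (w + 1) - C / (w - α) - regularPart C α e N w)
  have hK : ∀ w ∈ U, DifferentiableAt ℂ K w := fun w hw => by
    have h1 : DifferentiableAt ℂ (fun u : ℂ => (C : ℂ) / (u - α)) w :=
      (differentiableAt_const _).div (differentiableAt_id.sub_const _)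
        (sub_ne_zero.2 (hne w hw).1)
    exact (differentiableAt_id.div_const _).mul
      (((hL w hw).sub h1).sub (differentiableAt_regularPart C α e N (hre0 w hw)))
  have hkey : EqOn (deriv riemannZeta₁) (fun w => riemannZeta₁ w * K w) U := by
    obtain ⟨c, hc, hc1⟩ : ∃ c : ℂ, c ∈ U ∧ 1 < c.re :=
      ⟨((max v 1 + 1 : ℝ) : ℂ), show v < _ by simp; linarith [le_max_left v 1],
        by simp⟩
    refine AnalyticOnNhd.eqOn_of_preconnected_of_eventuallyEq
      (DifferentiableOn.analyticOnNhd (fun w _ =>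
        (differentiable_riemannZeta₁.deriv w).differentiableWithinAt) hUo)
      (DifferentiableOn.analyticOnNhd (fun w hw =>
        ((differentiable_riemannZeta₁ w).mul (hK w hw)).differentiableWithinAt) hUo)
      (convex_halfSpace_re_gt v).isPreconnected hc ?_
    filter_upwards [hUo.mem_nhds hc,
      (isOpen_lt continuous_const continuous_re).mem_nhds hc1] with w hw hw1
    have hw1' : 1 < w.re := hw1
    have hz1 : w ≠ 1 := fun h => by simp [h] at hw1'
    have hnz : riemannZeta₁ w ≠ 0 := fun h => riemannZeta_ne_zero_of_one_lt_re hw1'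
      (by rw [riemannZeta_eq_inv_sub_mul hz1, h, mul_zero])
    have h := (lSeriesHasSum_tailCoeff hα hα1 C e N hw1').LSeries_eq
    simp only [K, ha]
    rw [h, continuation]
    have hec : (e : ℂ) ≠ 0 := Complex.ofReal_ne_zero.2 he
    have hw0 : w ≠ 0 := (hne w hw).2
    field_simp
    ring
  have hnz : riemannZeta₁ z ≠ 0 := by
    intro h0
    obtain ⟨m, hm, hev, hlim⟩ := exists_tendsto_logDeriv h0
    have hlim0 : Tendsto (fun w => (w - z) * (deriv riemannZeta₁ w / riemannZeta₁ w)) (𝓝[≠] z)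
        (𝓝 0) := by
      have hc : ContinuousAt (fun w => (w - z) * K w) z :=
        (continuousAt_id.sub continuousAt_const).mul (hK z hz).continuousAt
      have := hc.tendsto.mono_left (nhdsWithin_le_nhds (s := {z}ᶜ))
      simp only [sub_self, zero_mul] at this
      refine this.congr' ?_
      filter_upwards [hev, nhdsWithin_le_nhds (hUo.mem_nhds hz)] with w hw hwU
      rw [hkey hwU, mul_div_cancel_left₀ _ hw]
    have := tendsto_nhds_unique hlim hlim0
    simp only [Nat.cast_eq_zero] at this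
    omega
  refine ⟨hnz, ?_⟩
  have h := hkey hz
  simp only [K] at h
  rw [continuation, h]
  have hec : (e : ℂ) ≠ 0 := Complex.ofReal_ne_zero.2 he
  have hz0 : z ≠ 0 := (hne z hz).2
  field_simp
  ring

/-- **Landau's step**: the series converges throughout `α < re z`. -/
theorem summable_of_bound (hα : 0 < α) (hα1 : α < 1) (he : e ≠ 0)
    (h : ∀ n, N ≤ n → e * (Chebyshev.psi n - n) ≤ C * (n : ℝ) ^ α) {z : ℂ} (hz : α < z.re) :
    LSeriesSummable (fun n => (tailCoeff C α e N n : ℂ)) (z + 1) := by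
  set a : ℕ → ℂ := fun n => (tailCoeff C α e N n : ℂ) with ha
  set S : Set ℝ := {x | α < x ∧ LSeriesSummable a ((x + 1 : ℝ) : ℂ)} with hS
  have h2 : (2 : ℝ) ∈ S := ⟨by linarith, summable_tailCoeff_of_two_lt hα hα1 C e N (by norm_num)⟩
  have hbdd : BddBelow S := ⟨α, fun x hx => hx.1.le⟩
  set v := sInf S with hv
  have hαv : α ≤ v := le_csInf ⟨2, h2⟩ fun x hx => hx.1.le
  have hsum : ∀ w : ℂ, v < w.re → LSeriesSummable a (w + 1) := fun w hw => by
    obtain ⟨x, hx, hxw⟩ := exists_lt_of_csInf_lt ⟨2, h2⟩ hw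
    exact summable_of_re_lt hx.2 (by simp; linarith)
  rcases eq_or_lt_of_le hαv with heq | hlt
  · exact hsum z (heq ▸ hz)
  exfalso
  have hv0 : 0 < v := hα.trans hlt
  have hev : ∀ᶠ w in 𝓝 (v : ℂ), DifferentiableAt ℂ (continuation C α e N) w := by
    filter_upwards [(isOpen_lt continuous_const continuous_re).mem_nhds
      (show α < (v : ℂ).re by simpa using hlt),
      differentiable_riemannZeta₁.continuous.continuousAt.eventually_ne
        (riemannZeta₁_real_ne_zero hv0)] with w hw hw1
    have hw' : α < w.re := hw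
    exact differentiableAt_continuation C α e N (hα.trans hw')
      (fun he' => by simp [he'] at hw') hw1
  obtain ⟨ε, hε, hball⟩ := Metric.eventually_nhds_iff.1 hev
  set r := min ε (v - α) with hr
  have hr0 : 0 < r := lt_min hε (by linarith)
  have hF : DifferentiableOn ℂ (fun w => continuation C α e N (w - 1))
      (Metric.ball (((v + r / 4 + 1 : ℝ)) : ℂ) (r / 2)) := fun w hw => by
    refine (DifferentiableAt.fun_comp' w (hball ?_)
      (differentiableAt_id.sub_const 1)).differentiableWithinAt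
    rw [Metric.mem_ball, dist_eq] at hw
    rw [dist_eq]
    calc ‖id w - 1 - (v : ℂ)‖ = ‖(w - ((v + r / 4 + 1 : ℝ) : ℂ)) + ((r / 4 : ℝ) : ℂ)‖ := by
          congr 1; push_cast; simp only [id_eq]; ring
      _ ≤ ‖w - ((v + r / 4 + 1 : ℝ) : ℂ)‖ + ‖((r / 4 : ℝ) : ℂ)‖ := norm_add_le _ _
      _ < r := by
          rw [Complex.norm_real, Real.norm_of_nonneg (by positivity)]
          linarith
      _ ≤ ε := min_le_left _ _
  have heqOn : EqOn (fun w => continuation C α e N (w - 1)) (LSeries a) {w | v + 1 < w.re} :=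
    fun w hw => by
    have hw' : v + 1 < w.re := hw
    have := (eq_continuation_of_summable hα hα1 he hαv hsum (z := w - 1) (by simp; linarith)).2
    rw [sub_add_cancel] at this
    exact this.symm
  set x := v - r / 8
  have hpart := fun T => FA.Signs.sum_term_le (a := a) (fun n => tailCoeff_nonneg h n)
    (x₀ := v + 1) (c := v + r / 4 + 1) (r := r / 2) (by linarith)
    (fun s hs => by
      have := hsum (s - 1) (by simp; linarith)
      rwa [sub_add_cancel] at this) hF heqOn T (x := x + 1) (by simp only [x]; linarith)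
    (by simp only [x]; linarith)
  have hterm : ∀ n, LSeries.term a ((x + 1 : ℝ) : ℂ) n =
      ((LSeries.term a ((x + 1 : ℝ) : ℂ) n).re : ℂ) ∧
      0 ≤ (LSeries.term a ((x + 1 : ℝ) : ℂ) n).re := fun n => by
    rcases Nat.eq_zero_or_pos n with rfl | hn
    · simp
    rw [LSeries.term_of_ne_zero hn.ne', ha, ← Complex.ofReal_natCast,
      ← Complex.ofReal_cpow (Nat.cast_nonneg n), ← Complex.ofReal_div, Complex.ofReal_re]
    exact ⟨rfl, div_nonneg (Complex.zero_le_real.1 (tailCoeff_nonneg h n)) (by positivity)⟩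
  have hxS : x ∈ S := by
    refine ⟨by simp only [x, hr]; linarith [min_le_right ε (v - α)], ?_⟩
    have hs : Summable fun n => (LSeries.term a ((x + 1 : ℝ) : ℂ) n).re := by
      refine summable_of_sum_le (fun n => (hterm n).2)
        (c := (continuation C α e N (((x + 1 : ℝ) : ℂ) - 1)).re) fun T => ?_
      rw [← Complex.re_sum]
      exact (Complex.le_def.1 (hpart T)).1
    exact (Complex.summable_ofReal.2 hs).congr fun n => ((hterm n).1).symm
  have := csInf_le hbdd hxS
  simp only [x] at this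
  linarith

/-- **No zeros to the right of `α`.** -/
theorem riemannZeta₁_ne_zero_of_bound (hα : 0 < α) (hα1 : α < 1) (he : e ≠ 0)
    (h : ∀ n, N ≤ n → e * (Chebyshev.psi n - n) ≤ C * (n : ℝ) ^ α) {z : ℂ} (hz : α < z.re) :
    riemannZeta₁ z ≠ 0 :=
  (eq_continuation_of_summable hα hα1 he le_rfl (fun _ hw => summable_of_bound hα hα1 he h hw)
    hz).1

/-- **A zero on the boundary bounds the constant.** -/
theorem one_le_of_zero_on_line (hα : 0 < α) (hα1 : α < 1) (he : |e| = 1)
    (h : ∀ n, N ≤ n → e * (Chebyshev.psi n - n) ≤ C * (n : ℝ) ^ α) {γ : ℝ}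
    (hρ : riemannZeta₁ ((α : ℂ) + γ * I) = 0) : 1 ≤ C * ‖(α : ℂ) + γ * I‖ := by
  have he0 : e ≠ 0 := fun h0 => by simp [h0] at he
  set ρ : ℂ := (α : ℂ) + γ * I with hρdef
  have hρre : ρ.re = α := by simp [hρdef]
  have hρ0 : ρ ≠ 0 := fun h0 => by rw [h0, zero_re] at hρre; linarith
  have hγ : ρ - α ≠ 0 := by
    intro h0
    rw [sub_eq_zero] at h0
    exact riemannZeta₁_real_ne_zero hα (h0 ▸ hρ)
  set a : ℕ → ℂ := fun n => (tailCoeff C α e N n : ℂ) with ha
  set p : ℝ → ℂ := fun t => (α : ℂ) + t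
  set q : ℝ → ℂ := fun t => ρ + t
  have hsum := fun (w : ℂ) (hw : α < w.re) => summable_of_bound hα hα1 he0 h hw
  have hid := fun (w : ℂ) (hw : α < w.re) =>
    (eq_continuation_of_summable hα hα1 he0 le_rfl hsum hw).2
  have hle : ∀ t : ℝ, 0 < t → ‖continuation C α e N (q t)‖ ≤ (continuation C α e N (p t)).re := by
    intro t ht
    have hq : α < (q t).re := by simp [q, hρre, ht]
    have hp : α < (p t).re := by simp [p, ht]
    rw [← hid _ hq, ← hid _ hp, LSeries, LSeries, Complex.re_tsum (hsum _ hp)]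
    refine (norm_tsum_le_tsum_norm (hsum _ hq).norm).trans
      (Summable.tsum_le_tsum (fun n => ?_) (hsum _ hq).norm (Complex.reCLM.summable (hsum _ hp)))
    rw [LSeries.norm_term_eq, show (q t + 1).re = α + t + 1 by simp [q, hρre],
      show p t + 1 = ((α + t + 1 : ℝ) : ℂ) by simp [p]]
    rcases Nat.eq_zero_or_pos n with rfl | hn
    · simp
    rw [if_neg hn.ne', LSeries.term_of_ne_zero hn.ne', ← Complex.ofReal_natCast,
      ← Complex.ofReal_cpow (Nat.cast_nonneg n), ← Complex.ofReal_div, Complex.ofReal_re,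
      Complex.norm_real, Real.norm_of_nonneg (Complex.zero_le_real.1 (tailCoeff_nonneg h n))]
  obtain ⟨m, hm, -, hlim⟩ := exists_tendsto_logDeriv hρ
  have ht0 : Tendsto (fun t : ℝ => (t : ℂ)) (𝓝[>] 0) (𝓝 0) :=
    (Complex.continuous_ofReal.tendsto' 0 0 Complex.ofReal_zero).mono_left nhdsWithin_le_nhds
  have hqt : Tendsto q (𝓝[>] 0) (𝓝[≠] ρ) := by
    refine tendsto_nhdsWithin_iff.2 ⟨by simpa [q] using ht0.const_add ρ, ?_⟩
    filter_upwards [self_mem_nhdsWithin] with t ht
    simpa [q] using (ne_of_gt (show (0 : ℝ) < t from ht))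
  have hq' : Tendsto q (𝓝[>] 0) (𝓝 ρ) := hqt.mono_right nhdsWithin_le_nhds
  have hp' : Tendsto p (𝓝[>] 0) (𝓝 (α : ℂ)) := by simpa [p] using ht0.const_add (α : ℂ)
  have hposre : 0 < ρ.re := by rw [hρre]; exact hα
  have hA : Tendsto (fun t : ℝ => (t : ℂ) * continuation C α e N (q t)) (𝓝[>] 0)
      (𝓝 ((e : ℂ) * m / ρ)) := by
    have h1 : ContinuousAt (fun w => (C : ℂ) / (w - α) + regularPart C α e N w) ρ :=
      (continuousAt_const.div (continuousAt_id.sub continuousAt_const) hγ).add
        (differentiableAt_regularPart C α e N hposre).continuousAt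
    have h2 := (ht0.mul (h1.tendsto.comp hq')).add
      (((hlim.comp hqt).const_mul (e : ℂ)).div hq' hρ0)
    rw [zero_mul, zero_add] at h2
    refine h2.congr fun t => ?_
    simp only [Function.comp_apply, continuation, q, add_sub_cancel_left, Pi.div_apply]
    ring
  have hB : Tendsto (fun t : ℝ => (t : ℂ) * continuation C α e N (p t)) (𝓝[>] 0) (𝓝 (C : ℂ)) := by
    have h1 : ContinuousAt (fun w => regularPart C α e N w +
        (e : ℂ) * (deriv riemannZeta₁ w / riemannZeta₁ w) / w) (α : ℂ) :=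
      (differentiableAt_regularPart C α e N (by simpa using hα)).continuousAt.add
        ((((differentiable_riemannZeta₁.deriv _).continuousAt.div
          (differentiable_riemannZeta₁ _).continuousAt
            (riemannZeta₁_real_ne_zero hα)).const_mul _).div continuousAt_id
              (Complex.ofReal_ne_zero.2 hα.ne'))
    have h2 := (ht0.mul (h1.tendsto.comp hp')).const_add (C : ℂ)
    rw [zero_mul, add_zero] at h2
    refine h2.congr' ?_
    filter_upwards [self_mem_nhdsWithin] with t ht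
    have htne : (t : ℂ) ≠ 0 := Complex.ofReal_ne_zero.2 (ne_of_gt (show (0 : ℝ) < t from ht))
    simp only [Function.comp_apply, continuation, p, add_sub_cancel_left]
    field_simp
    ring
  have hC : ‖(e : ℂ) * m / ρ‖ ≤ C := by
    refine le_of_tendsto_of_tendsto hA.norm ((Complex.continuous_re.tendsto _).comp hB) ?_
    filter_upwards [self_mem_nhdsWithin] with t ht
    have ht' : (0 : ℝ) < t := ht
    rw [norm_mul, Complex.norm_real, Real.norm_of_nonneg ht'.le, Function.comp_apply,
      Complex.re_ofReal_mul]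
    exact mul_le_mul_of_nonneg_left (hle t ht') ht'.le
  rw [norm_div, norm_mul, Complex.norm_real, Real.norm_eq_abs, he, one_mul, Complex.norm_natCast,
    div_le_iff₀ (norm_pos_iff.2 hρ0)] at hC
  exact le_trans (by exact_mod_cast hm) hC

end FA.PsiOscillation

end
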