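import Fermat.Agent.PsiOscillation.Landau
import Fermat.Agent.HardyZeros.Main

/-!
# The oscillation of `ψ x - x`

Schmidt's theorem `ψ n - n = Ω± (√n)`, the larger oscillation forced by a zero to the right of the
line, and the Riemann hypothesis from one-sided bounds.
-/

set_option autoImplicit false

noncomputable section

open Complex Filter Topology Set

namespace FA.PsiOscillation

/-- A zero of `ζ` other than `1` is one of `ζ₁`. -/
theorem riemannZeta₁_eq_zero {s : ℂ} (hs : riemannZeta s = 0) (h1 : s ≠ 1) :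
    riemannZeta₁ s = 0 := by
  rw [riemannZeta_eq_inv_sub_mul h1, mul_eq_zero] at hs
  exact hs.resolve_left (inv_ne_zero (sub_ne_zero.2 h1))

/-- A zero with real part above `α` makes `ψ n - n` exceed every `C n ^ α` on both sides. -/
theorem frequently_gt_of_zero {ρ : ℂ} (hρ : riemannZeta ρ = 0) (hρ1 : ρ ≠ 1) {α : ℝ}
    (hα : 0 < α) (hαρ : α < ρ.re) (C : ℝ) {e : ℝ} (he : e ≠ 0) :
    ∃ᶠ n : ℕ in atTop, C * (n : ℝ) ^ α < e * (Chebyshev.psi n - n) := by
  intro h
  simp only [not_lt] at h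
  obtain ⟨N, hN⟩ := eventually_atTop.1 h
  have hre : ρ.re < 1 := by
    by_contra hge
    exact riemannZeta_ne_zero_of_one_le_re (not_lt.1 hge) hρ
  exact riemannZeta₁_ne_zero_of_bound hα (hαρ.trans hre) he hN hαρ (riemannZeta₁_eq_zero hρ hρ1)

/-- **Schmidt's theorem.** -/
theorem exists_frequently_gt : ∃ c : ℝ, 0 < c ∧ ∀ e : ℝ, |e| = 1 →
    ∃ᶠ n : ℕ in atTop, c * Real.sqrt n < e * (Chebyshev.psi n - n) := by
  obtain ⟨γ, hγ⟩ := FA.HardyZeros.infinite_zeros.nonempty
  set ρ : ℂ := ((1 / 2 : ℝ) : ℂ) + γ * I with hρ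
  have hz : riemannZeta ρ = 0 := by rw [hρ]; push_cast; exact hγ
  have hne : ρ ≠ 1 := fun h => by
    have := congrArg Complex.re h
    simp [hρ] at this
  have hnorm : 0 < ‖ρ‖ := norm_pos_iff.2 fun h => by
    have := congrArg Complex.re h
    simp [hρ] at this
  refine ⟨1 / (2 * ‖ρ‖), by positivity, fun e he h => ?_⟩
  simp only [not_lt, Real.sqrt_eq_rpow] at h
  obtain ⟨N, hN⟩ := eventually_atTop.1 h
  have := one_le_of_zero_on_line (α := 1 / 2) (by norm_num) (by norm_num) he hN (γ := γ)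
    (riemannZeta₁_eq_zero hz hne)
  rw [← hρ, div_mul_eq_mul_div, one_mul] at this
  rw [le_div_iff₀ (by positivity)] at this
  linarith

theorem frequently_psi_gt : ∃ᶠ x : ℝ in atTop, x < Chebyshev.psi x := by
  obtain ⟨c, hc, h⟩ := exists_frequently_gt
  refine tendsto_natCast_atTop_atTop.frequently ((h 1 abs_one).mono fun n hn => ?_)
  nlinarith [Real.sqrt_nonneg (n : ℝ)]

theorem frequently_psi_lt : ∃ᶠ x : ℝ in atTop, Chebyshev.psi x < x := by
  obtain ⟨c, hc, h⟩ := exists_frequently_gt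
  refine tendsto_natCast_atTop_atTop.frequently ((h (-1) (by norm_num)).mono fun n hn => ?_)
  nlinarith [Real.sqrt_nonneg (n : ℝ)]

/-- **One-sided square root bounds imply the Riemann hypothesis.** -/
theorem riemannHypothesis_of_bound (e : ℝ) (he : e ≠ 0) (h : ∀ ε : ℝ, 0 < ε → ∃ C : ℝ,
    ∀ᶠ n : ℕ in atTop, e * (Chebyshev.psi n - n) ≤ C * (n : ℝ) ^ (1 / 2 + ε)) :
    RiemannHypothesis := by
  have main : ∀ s : ℂ, riemannZeta s = 0 → s ≠ 1 → ¬ 1 / 2 < s.re := fun s hs h1 hgt => by
    obtain ⟨C, hC⟩ := h ((s.re - 1 / 2) / 2) (by linarith)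
    exact frequently_gt_of_zero hs h1 (by linarith)
      (show 1 / 2 + (s.re - 1 / 2) / 2 < s.re by linarith) C he
      (hC.mono fun n hn => not_lt.2 hn)
  intro s hs htriv hs1
  rcases lt_trichotomy s.re (1 / 2) with hlt | heq | hgt
  · exfalso
    have h0 : s ≠ 0 := fun h0 => by rw [h0, riemannZeta_zero] at hs; norm_num at hs
    set t : ℂ := 1 - s with ht
    have htre : 1 / 2 < t.re := by simp [ht]; linarith
    have ht1 : t ≠ 1 := fun h' => h0 (by linear_combination -h')
    have hfe := riemannZeta_one_sub (s := t) (fun n hn => by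
      have := congrArg Complex.re hn
      simp at this
      linarith [Nat.cast_nonneg (α := ℝ) n]) ht1
    rw [show 1 - t = s by rw [ht]; ring, hs] at hfe
    have htz : riemannZeta t ≠ 0 := fun h' => main t h' ht1 htre
    have hG : Complex.Gamma t ≠ 0 := Complex.Gamma_ne_zero_of_re_pos (by linarith)
    have hpow : (2 * (Real.pi : ℂ)) ^ (-t) ≠ 0 := by
      rw [cpow_ne_zero_iff]
      exact Or.inl (mul_ne_zero two_ne_zero (Complex.ofReal_ne_zero.2 Real.pi_ne_zero))
    simp only [zero_eq_mul, mul_eq_zero, two_ne_zero, hpow, hG, htz, or_false, false_or] at hfe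
    obtain ⟨k, hk⟩ := Complex.cos_eq_zero_iff.1 hfe
    have hpi : (Real.pi : ℂ) ≠ 0 := Complex.ofReal_ne_zero.2 Real.pi_ne_zero
    have htk : t = 2 * k + 1 := by field_simp at hk; linear_combination hk
    have hk0 : 0 ≤ k := by
      have := congrArg Complex.re htk
      simp at this
      by_contra hneg
      have : (k : ℝ) ≤ -1 := by exact_mod_cast (by omega : k ≤ -1)
      linarith
    obtain ⟨j, rfl⟩ := Int.eq_ofNat_of_zero_le hk0
    rcases Nat.eq_zero_or_pos j with rfl | hj
    · simp at htk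
      exact ht1 htk
    · obtain ⟨i, rfl⟩ := Nat.exists_eq_succ_of_ne_zero hj.ne'
      refine htriv ⟨i, ?_⟩
      rw [ht] at htk
      push_cast at htk
      linear_combination -htk
  · exact heq
  · exact absurd hgt (main s hs hs1)

end FA.PsiOscillation

end
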