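import Fermat.Agent.PsiOscillation.Abel
import Fermat.Agent.Signs.Landau
import Mathlib.NumberTheory.Harmonic.ZetaAsymp
import Mathlib.NumberTheory.LSeries.Nonvanishing

/-!
# The Dirichlet series of `C n ^ α - e (ψ n - n)`

At `z + 1`, for `1 < re z`, it is `C / (z - α) + G z + e ζ₁' z / (z ζ₁ z)` with `G` holomorphic in
`0 < re z`, also after finitely many coefficients are removed.
-/

set_option autoImplicit false

noncomputable section

open Complex Filter Topology Set
open FA.Signs (removed)

namespace FA.PsiOscillation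

variable {C α e : ℝ}

/-- `C n ^ α - e (ψ n - n)`. -/
def coeff (C α e : ℝ) (n : ℕ) : ℝ := C * (n : ℝ) ^ α - e * (Chebyshev.psi n - n)

/-- These coefficients with those below `N` removed. -/
def tailCoeff (C α e : ℝ) (N n : ℕ) : ℝ := if n < N then 0 else coeff C α e n

/-- The holomorphic part. -/
def regularPart (C α e : ℝ) (N : ℕ) (z : ℂ) : ℂ :=
  C * riemannZeta₀ (z + 1 - α) + (e / z + e * riemannZeta₀ z - e * psiDefect z) -
    ∑ n ∈ Finset.range N, LSeries.term (fun n => (coeff C α e n : ℂ)) (z + 1) n

/-- The continuation. -/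
def continuation (C α e : ℝ) (N : ℕ) (z : ℂ) : ℂ :=
  C / (z - α) + regularPart C α e N z + e * (deriv riemannZeta₁ z / riemannZeta₁ z) / z

theorem differentiableAt_regularPart (C α e : ℝ) (N : ℕ) {z : ℂ} (hz : 0 < z.re) :
    DifferentiableAt ℂ (regularPart C α e N) z := by
  have hz0 : z ≠ 0 := fun h => by simp [h] at hz
  have hR : DifferentiableAt ℂ psiDefect z :=
    differentiableOn_psiDefect.differentiableAt
      ((isOpen_lt continuous_const continuous_re).mem_nhds hz)
  refine ((((differentiable_riemannZeta₀ _).comp z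
    ((differentiableAt_id.add_const 1).sub_const _)).const_mul _).add
    ((((differentiableAt_const _).div differentiableAt_id hz0).add
      ((differentiable_riemannZeta₀ z).const_mul _)).sub (hR.const_mul _))).sub ?_
  exact DifferentiableAt.fun_sum fun n _ =>
    DifferentiableAt.comp (f := fun w : ℂ => w + 1) z
      (g := fun s => LSeries.term (fun n => (coeff C α e n : ℂ)) s n)
      (FA.Signs.differentiable_term _ n _) (differentiableAt_id.add_const 1)

theorem differentiableAt_continuation (C α e : ℝ) (N : ℕ) {z : ℂ} (hz : 0 < z.re) (hα : z ≠ α)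
    (h : riemannZeta₁ z ≠ 0) : DifferentiableAt ℂ (continuation C α e N) z := by
  have hz0 : z ≠ 0 := fun h => by simp [h] at hz
  have h1 : DifferentiableAt ℂ (fun w : ℂ => (C : ℂ) / (w - α)) z :=
    (differentiableAt_const _).div (differentiableAt_id.sub_const _) (sub_ne_zero.2 hα)
  exact (h1.add (differentiableAt_regularPart C α e N hz)).add
    ((((differentiable_riemannZeta₁.deriv z).div (differentiable_riemannZeta₁ z) h).const_mul _).div
      differentiableAt_id hz0)

theorem lSeries_vonMangoldt_eq_pole {z : ℂ} (hz : 1 < z.re) :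
    LSeries (fun n => (ArithmeticFunction.vonMangoldt n : ℂ)) z =
      (z - 1)⁻¹ - deriv riemannZeta₁ z / riemannZeta₁ z := by
  have h1 : z ≠ 1 := fun h => by simp [h] at hz
  have hs := sub_ne_zero.2 h1
  have hne : riemannZeta₁ z ≠ 0 := fun h => riemannZeta_ne_zero_of_one_lt_re hz
    (by rw [riemannZeta_eq_inv_sub_mul h1, h, mul_zero])
  rw [ArithmeticFunction.LSeries_vonMangoldt_eq_deriv_riemannZeta_div hz,
    deriv_riemannZeta_eq_neg_inv_sub_sq_mul_add h1, riemannZeta_eq_inv_sub_mul h1]
  field_simp
  ring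

theorem hasSum_one_shift {w : ℂ} (hw : 1 < w.re) :
    HasSum (fun n : ℕ => LSeries.term 1 w n) (riemannZeta w) := by
  rw [← LSeries_one_eq_riemannZeta hw]
  exact (LSeriesSummable_one_iff.2 hw).LSeriesHasSum

/-- **The identity** before removing coefficients. -/
theorem lSeriesHasSum_coeff (hα : 0 < α) (hα1 : α < 1) (C e : ℝ) {z : ℂ} (hz : 1 < z.re) :
    LSeriesHasSum (fun n => (coeff C α e n : ℂ)) (z + 1)
      (continuation C α e 0 z) := by
  have hz0 : z ≠ 0 := fun h => by simp [h] at hz; linarith
  have h1 : z ≠ 1 := fun h => by simp [h] at hz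
  have hs := sub_ne_zero.2 h1
  have hA := (hasSum_one_shift (w := z + 1 - α) (by simp; linarith)).mul_left (C : ℂ)
  have hN := (hasSum_one_shift hz).mul_left (e : ℂ)
  have hP := (hasSum_psiNat hz).mul_left (e : ℂ)
  have hα0 : ((z + 1 - α : ℂ)) ≠ 1 := fun h => by
    have := congrArg Complex.re h
    simp at this
    linarith
  have hval : continuation C α e 0 z =
      (C : ℂ) * riemannZeta (z + 1 - α) + (e : ℂ) * riemannZeta z -
      (e : ℂ) * (LSeries (fun n => (ArithmeticFunction.vonMangoldt n : ℂ)) z / z + psiDefect z) := by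
    rw [lSeries_vonMangoldt_eq_pole hz, riemannZeta_eq_inv_sub_add hα0,
      riemannZeta_eq_inv_sub_add h1, continuation, regularPart, Finset.sum_range_zero, sub_zero,
      show z + 1 - α - 1 = z - α by ring, div_eq_mul_inv (C : ℂ)]
    field_simp
    ring
  rw [hval]
  refine ((hA.add hN).sub hP).congr_fun fun n => ?_
  rcases Nat.eq_zero_or_pos n with rfl | hn
  · simp [psiNat_zero]
  have hn0 : (n : ℂ) ≠ 0 := Nat.cast_ne_zero.2 hn.ne'
  simp only [LSeries.term_of_ne_zero hn.ne', Pi.one_apply, coeff, psiNat]
  rw [ofReal_sub, ofReal_mul, ofReal_mul, ofReal_sub, ofReal_cpow (Nat.cast_nonneg n),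
    ofReal_natCast, div_eq_mul_inv, one_div, one_div, ← cpow_neg, ← cpow_neg, ← cpow_neg,
    show -(z + 1 - (α : ℂ)) = (α : ℂ) + -(z + 1) by ring, show -z = 1 + -(z + 1) by ring,
    cpow_add _ _ hn0, cpow_add _ _ hn0, cpow_one]
  ring

/-- **The identity** after removing the coefficients below `N`. -/
theorem lSeriesHasSum_tailCoeff (hα : 0 < α) (hα1 : α < 1) (C e : ℝ) (N : ℕ) {z : ℂ}
    (hz : 1 < z.re) :
    LSeriesHasSum (fun n => (tailCoeff C α e N n : ℂ)) (z + 1) (continuation C α e N z) := by
  have h := lSeriesHasSum_coeff hα hα1 C e hz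
  have h' := FA.Signs.hasSum_removed (Finset.range N) h.LSeriesSummable
  have e1 : (fun n => (tailCoeff C α e N n : ℂ)) =
      removed (fun n => (coeff C α e n : ℂ)) (Finset.range N) := funext fun n => by
    simp only [tailCoeff, removed, Finset.mem_range]
    split_ifs <;> simp
  rw [e1]
  convert h' using 1
  rw [h.LSeries_eq, continuation, continuation, regularPart, regularPart, Finset.sum_range_zero]
  ring

end FA.PsiOscillation

end
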