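import Mathlib.NumberTheory.Chebyshev
import Mathlib.NumberTheory.LSeries.Dirichlet
import Mathlib.Analysis.Calculus.MeanValue
import Mathlib.Analysis.SpecialFunctions.Pow.Deriv
import Mathlib.Analysis.PSeries
import Mathlib.Analysis.Complex.LocallyUniformLimit

/-!
# The Dirichlet series of `ψ n`

For `1 < re z`, `∑ ψ n n ^ (-(z + 1)) = L (Λ, z) / z + R z` with `R` holomorphic in `0 < re z`.
-/

set_option autoImplicit false

noncomputable section

open Complex Filter Topology Set

namespace FA.PsiOscillation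

/-- `ψ n` as a complex number. -/
def psiNat (n : ℕ) : ℂ := (Chebyshev.psi n : ℂ)

theorem psiNat_zero : psiNat 0 = 0 := by simp [psiNat]

theorem psiNat_succ (n : ℕ) :
    psiNat (n + 1) = psiNat n + (ArithmeticFunction.vonMangoldt (n + 1) : ℂ) := by
  simp only [psiNat, Chebyshev.psi_eq_sum_Icc, Nat.floor_natCast]
  rw [Finset.sum_Icc_succ_top (by omega)]
  push_cast
  rfl

/-- A constant with `ψ x ≤ psiConst * x`. -/
def psiConst : ℝ := Real.log 4 + 4

theorem norm_psiNat_le (n : ℕ) : ‖psiNat n‖ ≤ psiConst * n := by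
  rw [psiNat, Complex.norm_real, Real.norm_of_nonneg (Chebyshev.psi_nonneg _)]
  exact Chebyshev.psi_le_const_mul_self (Nat.cast_nonneg n)

/-- The deviation of `n ^ (-(z + 1))` from `(n ^ (-z) - (n + 1) ^ (-z)) / z`. -/
def stepDefect (n : ℕ) (z : ℂ) : ℂ :=
  (n : ℂ) ^ (-(z + 1)) - ((n : ℂ) ^ (-z) - ((n : ℂ) + 1) ^ (-z)) / z

theorem norm_cpow_step_le {n : ℕ} (hn : 0 < n) {z : ℂ} (hz : 0 < z.re) {t : ℝ}
    (ht : t ∈ Icc (n : ℝ) (n + 1)) :
    ‖(t : ℂ) ^ (-(z + 1)) - ((n : ℝ) : ℂ) ^ (-(z + 1))‖ ≤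
      ‖z + 1‖ * (n : ℝ) ^ (-z.re - 2) := by
  have hn' : (0 : ℝ) < n := Nat.cast_pos.2 hn
  have hz1 : -(z + 1) ≠ 0 := fun h => by
    have := congrArg Complex.re h
    simp at this
    linarith
  have hd : ∀ u ∈ Icc (n : ℝ) (n + 1), HasDerivWithinAt (fun y : ℝ => (y : ℂ) ^ (-(z + 1)))
      (-(z + 1) * (u : ℂ) ^ (-(z + 1) - 1)) (Icc (n : ℝ) (n + 1)) u := fun u hu =>
    (hasDerivAt_ofReal_cpow_const (hn'.trans_le hu.1).ne' hz1).hasDerivWithinAt
  have hb : ∀ u ∈ Ico (n : ℝ) (n + 1), ‖-(z + 1) * (u : ℂ) ^ (-(z + 1) - 1)‖ ≤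
      ‖z + 1‖ * (n : ℝ) ^ (-z.re - 2) := fun u hu => by
    rw [norm_mul, norm_neg, norm_cpow_eq_rpow_re_of_pos (hn'.trans_le hu.1)]
    refine mul_le_mul_of_nonneg_left ?_ (norm_nonneg _)
    rw [show (-(z + 1) - 1).re = -z.re - 2 by simp; ring]
    exact Real.rpow_le_rpow_of_nonpos hn' hu.1 (by linarith)
  refine (norm_image_sub_le_of_norm_deriv_le_segment' hd hb t ht).trans ?_
  exact mul_le_of_le_one_right (by positivity) (by linarith [ht.2])

theorem norm_stepDefect_le {n : ℕ} (hn : 0 < n) {z : ℂ} (hz : 0 < z.re) :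
    ‖stepDefect n z‖ ≤ ‖z + 1‖ * (n : ℝ) ^ (-z.re - 2) := by
  have hz0 : z ≠ 0 := fun h => by simp [h] at hz
  have hn' : (0 : ℝ) < n := Nat.cast_pos.2 hn
  set φ : ℝ → ℂ := fun t => -(t : ℂ) ^ (-z) / z - (t : ℂ) * ((n : ℝ) : ℂ) ^ (-(z + 1)) with hφ
  have hd : ∀ u ∈ Icc (n : ℝ) (n + 1), HasDerivWithinAt φ
      ((u : ℂ) ^ (-(z + 1)) - ((n : ℝ) : ℂ) ^ (-(z + 1))) (Icc (n : ℝ) (n + 1)) u := fun u hu => by
    refine HasDerivAt.hasDerivWithinAt ?_
    have h1 := ((hasDerivAt_ofReal_cpow_const (hn'.trans_le hu.1).ne'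
      (neg_ne_zero.2 hz0)).neg.div_const z).sub
      ((Complex.ofRealCLM.hasDerivAt (x := u)).mul_const (((n : ℝ) : ℂ) ^ (-(z + 1))))
    refine h1.congr_deriv ?_
    rw [Complex.ofRealCLM_apply, Complex.ofReal_one, one_mul,
      show -z - 1 = -(z + 1) by ring]
    field_simp
  have h := norm_image_sub_le_of_norm_deriv_le_segment' hd
    (fun u hu => norm_cpow_step_le hn hz (Ico_subset_Icc_self hu)) ((n : ℝ) + 1)
    (right_mem_Icc.2 (le_add_of_nonneg_right zero_le_one))
  rw [add_sub_cancel_left, mul_one] at h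
  refine le_trans (le_of_eq ?_) h
  rw [← norm_neg]
  congr 1
  simp only [hφ, stepDefect]
  push_cast
  ring

/-- `R z = ∑ ψ n * stepDefect n z`. -/
def psiDefect (z : ℂ) : ℂ := ∑' n : ℕ, psiNat n * stepDefect n z

theorem norm_psi_stepDefect_le (n : ℕ) {z : ℂ} {δ : ℝ} (hδ : 0 < δ) (hz : δ ≤ z.re) :
    ‖psiNat n * stepDefect n z‖ ≤ psiConst * ‖z + 1‖ * (n : ℝ) ^ (-δ - 1) := by
  rcases Nat.eq_zero_or_pos n with rfl | hn
  · simp [psiNat_zero, Real.zero_rpow (show -δ - 1 ≠ 0 by linarith)]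
  have hn1 : (1 : ℝ) ≤ n := Nat.one_le_cast.2 hn
  have hC : 0 ≤ psiConst := by unfold psiConst; positivity
  rw [norm_mul]
  refine (mul_le_mul (norm_psiNat_le n) (norm_stepDefect_le hn (hδ.trans_le hz)) (norm_nonneg _)
    (by positivity)).trans ?_
  rw [show psiConst * n * (‖z + 1‖ * (n : ℝ) ^ (-z.re - 2)) =
    psiConst * ‖z + 1‖ * ((n : ℝ) ^ (1 : ℝ) * (n : ℝ) ^ (-z.re - 2)) by rw [Real.rpow_one]; ring,
    ← Real.rpow_add (by linarith)]
  refine mul_le_mul_of_nonneg_left (Real.rpow_le_rpow_of_exponent_le hn1 (by linarith)) ?_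
  exact mul_nonneg hC (norm_nonneg _)

theorem summable_psi_stepDefect {z : ℂ} (hz : 0 < z.re) :
    Summable fun n : ℕ => psiNat n * stepDefect n z :=
  Summable.of_norm_bounded ((Real.summable_nat_rpow.2 (by linarith : -z.re - 1 < -1)).mul_left _)
    fun n => norm_psi_stepDefect_le n hz le_rfl

theorem differentiableOn_psiDefect : DifferentiableOn ℂ psiDefect {z | 0 < z.re} := by
  intro z hz
  have hz' : 0 < z.re := hz
  set U : Set ℂ := {w | z.re / 2 < w.re} ∩ Metric.ball 0 (‖z‖ + 1)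
  have hU : IsOpen U := (isOpen_lt continuous_const continuous_re).inter Metric.isOpen_ball
  have hzU : z ∈ U := ⟨show z.re / 2 < z.re by linarith, by simp⟩
  have hd : DifferentiableOn ℂ psiDefect U := by
    refine differentiableOn_tsum_of_summable_norm
      ((Real.summable_nat_rpow.2 (by linarith : -(z.re / 2) - 1 < -1)).mul_left
        (psiConst * (‖z‖ + 2))) (fun n => ?_) hU fun n w hw => ?_
    · rcases Nat.eq_zero_or_pos n with rfl | hn
      · simp only [psiNat_zero, zero_mul]; exact differentiableOn_const 0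
      intro w hw
      have hw0 : w ≠ 0 := fun h => by
        have := hw.1
        simp [h] at this
        linarith
      have hn0 : (n : ℂ) ≠ 0 := Nat.cast_ne_zero.2 hn.ne'
      have hn1 : (n : ℂ) + 1 ≠ 0 := by exact_mod_cast n.succ_ne_zero
      refine DifferentiableAt.differentiableWithinAt ?_
      exact (((differentiableAt_id.add_const 1).neg.const_cpow (Or.inl hn0)).sub
        (((differentiableAt_id.neg.const_cpow (Or.inl hn0)).sub
          (differentiableAt_id.neg.const_cpow (Or.inl hn1))).div differentiableAt_id hw0)).const_mul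
            _
    · refine (norm_psi_stepDefect_le n (by linarith) (le_of_lt hw.1)).trans ?_
      refine mul_le_mul_of_nonneg_right (mul_le_mul_of_nonneg_left ?_ ?_) (by positivity)
      · have := mem_ball_zero_iff.1 hw.2
        exact (norm_add_le w 1).trans (by rw [norm_one]; linarith)
      · unfold psiConst; positivity
  exact ((hd.differentiableAt (hU.mem_nhds hzU))).differentiableWithinAt

theorem sum_range_abel (z : ℂ) (N : ℕ) :
    ∑ n ∈ Finset.range (N + 1), psiNat n * ((n : ℂ) ^ (-z) - ((n : ℂ) + 1) ^ (-z)) =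
      (∑ n ∈ Finset.range (N + 1), LSeries.term (fun n => (ArithmeticFunction.vonMangoldt n : ℂ))
        z n) - psiNat N * ((N : ℂ) + 1) ^ (-z) := by
  induction N with
  | zero => simp [psiNat_zero]
  | succ k ih =>
    rw [Finset.sum_range_succ, ih, Finset.sum_range_succ (n := k + 1),
      LSeries.term_def₀ (by simp) z (k + 1), psiNat_succ]
    push_cast
    ring

/-- **The Dirichlet series of `ψ`.** -/
theorem hasSum_psiNat {z : ℂ} (hz : 1 < z.re) :
    HasSum (fun n : ℕ => psiNat n * (n : ℂ) ^ (-(z + 1)))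
      (LSeries (fun n => (ArithmeticFunction.vonMangoldt n : ℂ)) z / z + psiDefect z) := by
  have hz0 : z ≠ 0 := fun h => by simp [h] at hz; linarith
  have hsum : Summable fun n : ℕ => psiNat n * (n : ℂ) ^ (-(z + 1)) := by
    refine Summable.of_norm_bounded
      ((Real.summable_nat_rpow.2 (by linarith : -z.re < -1)).mul_left psiConst) fun n => ?_
    rcases Nat.eq_zero_or_pos n with rfl | hn
    · simp [psiNat_zero, Real.zero_rpow (show -z.re ≠ 0 by linarith)]
    have hn' : (0 : ℝ) < n := Nat.cast_pos.2 hn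
    rw [norm_mul, norm_natCast_cpow_of_pos hn]
    refine (mul_le_mul_of_nonneg_right (norm_psiNat_le n) (by positivity)).trans (le_of_eq ?_)
    rw [mul_assoc, show (-(z + 1)).re = -z.re - 1 by simp; ring]
    congr 1
    rw [show (-z.re) = 1 + (-z.re - 1) by ring, Real.rpow_add hn', Real.rpow_one]
    ring_nf
  have hA : Summable fun n : ℕ =>
      psiNat n * ((n : ℂ) ^ (-z) - ((n : ℂ) + 1) ^ (-z)) / z := by
    refine (hsum.sub (summable_psi_stepDefect (by linarith : 0 < z.re))).congr fun n => ?_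
    rw [stepDefect]
    ring
  have hL : LSeriesSummable (fun n => (ArithmeticFunction.vonMangoldt n : ℂ)) z :=
    ArithmeticFunction.LSeriesSummable_vonMangoldt hz
  have hzero : Tendsto (fun N : ℕ => psiNat N * ((N : ℂ) + 1) ^ (-z)) atTop (𝓝 0) := by
    refine squeeze_zero_norm (a := fun N : ℕ => psiConst * ((N : ℝ) + 1) ^ (-(z.re - 1)))
      (fun N => ?_) ?_
    · have h0 : (0 : ℝ) < (N : ℝ) + 1 := by positivity
      rw [norm_mul, show (N : ℂ) + 1 = (((N : ℝ) + 1 : ℝ) : ℂ) by push_cast; ring,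
        norm_cpow_eq_rpow_re_of_pos h0, neg_re]
      refine (mul_le_mul_of_nonneg_right (norm_psiNat_le N) (by positivity)).trans ?_
      rw [show -(z.re - 1) = 1 + -z.re by ring, Real.rpow_add h0, Real.rpow_one, mul_assoc]
      refine mul_le_mul_of_nonneg_left (mul_le_mul_of_nonneg_right (by linarith) (by positivity)) ?_
      unfold psiConst; positivity
    · have := ((tendsto_rpow_neg_atTop (by linarith : 0 < z.re - 1)).comp
        (tendsto_atTop_add_const_right atTop 1 tendsto_natCast_atTop_atTop)).const_mul psiConst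
      simpa [Function.comp_def] using this
  have hAval : ∑' n, psiNat n * ((n : ℂ) ^ (-z) - ((n : ℂ) + 1) ^ (-z)) / z =
      LSeries (fun n => (ArithmeticFunction.vonMangoldt n : ℂ)) z / z := by
    refine tendsto_nhds_unique
      ((hA.hasSum.tendsto_sum_nat).comp (tendsto_add_atTop_nat 1)) ?_
    have h := (((hL.LSeriesHasSum.tendsto_sum_nat).comp (tendsto_add_atTop_nat 1)).sub
      hzero).div_const z
    rw [sub_zero] at h
    refine h.congr fun N => ?_
    simp only [Function.comp_apply]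
    rw [← sum_range_abel, Finset.sum_div]
  rw [← hAval]
  refine (hA.hasSum.add (summable_psi_stepDefect (by linarith : 0 < z.re)).hasSum).congr_fun
    fun n => ?_
  rw [stepDefect]
  ring

end FA.PsiOscillation

end
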